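/-
S19 / S32, abstract block (route-independent): definitions.

`M` is a finite abelian group with an action `act` of `G_ℚ = Gal(ℚ̄/ℚ)`.  A *Hopf order* is a
`ℤ_(ℓ)`-subalgebra `Hs` of the algebra of functions `M → ℚ̄` consisting of Galois-equivariant
functions, finitely generated as a module, separating the points of `M`, and closed under the
comultiplication `φ ↦ ((y, y') ↦ φ (y + y'))`.

`HasHopfModel ℓ act` is the frozen `∃`-shape of S19 and of `GaloisRepAdic.IsFlatAt`:
a finite flat cocommutative Hopf algebra over `ℤ_(ℓ)` whose `ℚ̄`-points are `M`, as a group with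
Galois action.  The main theorem (`HopfOfOrder.lean`) is `IsHopfOrder → HasHopfModel`.
-/
import Mathlib
import Fermat.Prelude.Def_GaloisRep_Flat

set_option autoImplicit false

namespace Fermat.Agent.S19.Abs

open GaloisRep

/-- `ℚ̄` -/
abbrev Qb : Type := AlgebraicClosure ℚ

/-- `G_ℚ` -/
abbrev GQ : Type := AlgebraicClosure ℚ ≃ₐ[ℚ] AlgebraicClosure ℚ

/-- the hypotheses on the Galois action: a group action by additive maps -/
structure IsGalAction {M : Type} [AddCommGroup M] (act : GQ → M → M) : Prop where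
  one : ∀ y, act 1 y = y
  mul : ∀ σ τ y, act (σ * τ) y = act σ (act τ y)
  add : ∀ σ y y', act σ (y + y') = act σ y + act σ y'

/-- **Hopf orders** inside the algebra of functions `M → ℚ̄`. -/
structure IsHopfOrder (ℓ : ℕ) {M : Type} [AddCommGroup M] (act : GQ → M → M)
    (Hs : Subalgebra (ratLocalizedAt ℓ) (M → Qb)) : Prop where
  /-- the functions are Galois-equivariant -/
  equivariant : ∀ φ ∈ Hs, ∀ (σ : GQ) (y : M), φ (act σ y) = σ (φ y)
  /-- finitely generated as a `ℤ_(ℓ)`-module -/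
  fg : (Subalgebra.toSubmodule Hs).FG
  /-- the functions separate the points of `M` -/
  separates : ∀ y y' : M, y ≠ y' → ∃ φ ∈ Hs, φ y ≠ φ y'
  /-- closed under comultiplication -/
  comul : ∀ φ ∈ Hs, ∃ (n : ℕ) (a b : Fin n → M → Qb), (∀ j, a j ∈ Hs) ∧ (∀ j, b j ∈ Hs) ∧
    ∀ y y' : M, φ (y + y') = ∑ j, a j y * b j y'

/-- The frozen `∃`-shape of S19 and of `GaloisRepAdic.IsFlatAt`. -/
def HasHopfModel (ℓ : ℕ) {M : Type} [AddCommGroup M] (act : GQ → M → M) : Prop :=
  ∃ (H : Type) (_ : CommRing H) (_ : HopfAlgebra (ratLocalizedAt ℓ) H),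
    Module.Finite (ratLocalizedAt ℓ) H ∧ Module.Flat (ratLocalizedAt ℓ) H ∧
    Coalgebra.IsCocomm (ratLocalizedAt ℓ) H ∧
    ∃ e : WithConv (H →ₐ[ratLocalizedAt ℓ] AlgebraicClosure ℚ) ≃ M,
      (∀ f g : WithConv (H →ₐ[ratLocalizedAt ℓ] AlgebraicClosure ℚ), e (f * g) = e f + e g) ∧
      ∀ (σ : GQ) (f g : WithConv (H →ₐ[ratLocalizedAt ℓ] AlgebraicClosure ℚ)),
        (∀ h : H, g h = σ (f h)) → e g = act σ (e f)

end Fermat.Agent.S19.Abs
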