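/-
S19 / S32, abstract block: Artin's descent lemma.

Galois-equivariant functions `M → ℚ̄` which are linearly independent over `ℤ_(ℓ)` (or `ℚ`) are
linearly independent over `ℚ̄`.
-/
import Mathlib
import Fermat.Agent.S19.Abs.Defs
import Fermat.Agent.S28.LocalizedInt
import Fermat.Agent.S51.GaloisFixed

set_option autoImplicit false

namespace Fermat.Agent.S19.Abs

open GaloisRep

section Artin

variable {M : Type} {act : GQ → M → M}

/-- descent step: a non-trivial `ℚ̄`-linear relation between equivariant functions yields a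
non-trivial `ℚ`-linear relation -/
theorem exists_rat_relation {ι : Type} [Fintype ι] (hsurj : ∀ σ y, ∃ y₀, act σ y₀ = y)
    (f : ι → M → Qb) (hf : ∀ i (σ : GQ) y, f i (act σ y) = σ (f i y)) :
    ∀ (n : ℕ) (c : ι → Qb), (Finset.univ.filter (fun i => c i ≠ 0)).card = n → c ≠ 0 →
      (∀ y, ∑ i, c i * f i y = 0) →
      ∃ q : ι → ℚ, q ≠ 0 ∧ ∀ y, ∑ i, algebraMap ℚ Qb (q i) * f i y = 0 := by
  classical
  intro n
  induction n using Nat.strong_induction_on with
  | _ n ih =>
  intro c hn hc hrel
  obtain ⟨i₀, hi₀⟩ : ∃ i₀, c i₀ ≠ 0 := by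
    by_contra h
    push Not at h
    exact hc (funext h)
  -- normalise
  let c' : ι → Qb := fun i => (c i₀)⁻¹ * c i
  have hc'0 : c' i₀ = 1 := inv_mul_cancel₀ hi₀
  have hrel' : ∀ y, ∑ i, c' i * f i y = 0 := by
    intro y
    have : ∑ i, c' i * f i y = (c i₀)⁻¹ * ∑ i, c i * f i y := by
      rw [Finset.mul_sum]
      refine Finset.sum_congr rfl fun i _ => ?_
      simp only [c']; ring
    rw [this, hrel y, mul_zero]
  have hsupp' : ∀ i, c' i ≠ 0 ↔ c i ≠ 0 := by
    intro i
    simp only [c', ne_eq, mul_eq_zero, inv_eq_zero, hi₀, false_or]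
  by_cases hfix : ∀ (σ : GQ) i, σ (c' i) = c' i
  · -- all coefficients rational
    have hq : ∀ i, ∃ q : ℚ, algebraMap ℚ Qb q = c' i := fun i =>
      Fermat.Agent.S51.exists_rat_of_fixed (c' i) (fun σ => hfix σ i)
    choose q hq using hq
    refine ⟨q, ?_, ?_⟩
    · intro h0
      have h1 := hq i₀
      rw [h0, hc'0] at h1
      simp at h1
    · intro y
      simp only [hq]
      exact hrel' y
  · push Not at hfix
    obtain ⟨σ, i₁, hi₁⟩ := hfix
    let d : ι → Qb := fun i => σ (c' i) - c' i
    have hd : d ≠ 0 := by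
      intro h0
      have := congrFun h0 i₁
      simp only [d, Pi.zero_apply, sub_eq_zero] at this
      exact hi₁ this
    have hdrel : ∀ y, ∑ i, d i * f i y = 0 := by
      intro y
      obtain ⟨y₀, hy₀⟩ := hsurj σ y
      have h1 : ∑ i, σ (c' i) * f i y = 0 := by
        have : ∑ i, σ (c' i) * f i y = σ (∑ i, c' i * f i y₀) := by
          rw [map_sum]
          refine Finset.sum_congr rfl fun i _ => ?_
          rw [show σ (c' i * f i y₀) = σ (c' i) * σ (f i y₀) from map_mul σ _ _, ← hf i σ y₀, hy₀]
        rw [this, hrel' y₀, map_zero]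
      have : ∑ i, d i * f i y = ∑ i, σ (c' i) * f i y - ∑ i, c' i * f i y := by
        rw [← Finset.sum_sub_distrib]
        refine Finset.sum_congr rfl fun i _ => ?_
        simp only [d]; ring
      rw [this, h1, hrel' y, sub_zero]
    have hdsupp : (Finset.univ.filter (fun i => d i ≠ 0)) ⊂
        (Finset.univ.filter (fun i => c i ≠ 0)) := by
      rw [Finset.ssubset_iff_of_subset]
      · refine ⟨i₀, ?_, ?_⟩
        · simp [hi₀]
        · simp only [Finset.mem_filter, Finset.mem_univ, true_and, not_not, d, hc'0, map_one,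
            sub_self]
      · intro i hi
        simp only [Finset.mem_filter, Finset.mem_univ, true_and] at hi ⊢
        rw [← hsupp']
        intro h0
        apply hi
        simp only [d, h0, map_zero, sub_self]
    have hlt : (Finset.univ.filter (fun i => d i ≠ 0)).card < n := by
      rw [← hn]
      exact Finset.card_lt_card hdsupp
    exact ih _ hlt d rfl hd hdrel

variable (ℓ : ℕ) [Fact ℓ.Prime]

/-- **Artin's lemma**: equivariant functions which are independent over `ℤ_(ℓ)` are independent
over `ℚ̄`. -/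
theorem linearIndependent_Qb {ι : Type} [Fintype ι] (hsurj : ∀ σ y, ∃ y₀, act σ y₀ = y)
    (f : ι → M → Qb) (hf : ∀ i (σ : GQ) y, f i (act σ y) = σ (f i y))
    (hR : LinearIndependent (ratLocalizedAt ℓ) f) : LinearIndependent Qb f := by
  classical
  have hQ : LinearIndependent ℚ f :=
    (LinearIndependent.iff_fractionRing (R := ratLocalizedAt ℓ) (K := ℚ)).mp hR
  rw [Fintype.linearIndependent_iff]
  intro c hc
  by_contra hne
  push Not at hne
  have hc0 : c ≠ 0 := by
    intro h0
    obtain ⟨i, hi⟩ := hne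
    exact hi (congrFun h0 i)
  have hrel : ∀ y, ∑ i, c i * f i y = 0 := by
    intro y
    have := congrFun hc y
    simpa [Finset.sum_apply, Pi.smul_apply, smul_eq_mul] using this
  obtain ⟨q, hq0, hq⟩ := exists_rat_relation hsurj f hf _ c rfl hc0 hrel
  rw [Fintype.linearIndependent_iff] at hQ
  apply hq0
  funext i
  refine hQ q ?_ i
  funext y
  have := hq y
  simpa [Finset.sum_apply, Pi.smul_apply, Algebra.smul_def] using this

end Artin

end Fermat.Agent.S19.Abs
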