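/-
S19 / S32, abstract block: jointly injective families of evaluation maps on tensor products.

`R ⊂ Ω` a subring-like algebra (`algebraMap R Ω` injective), `P` a free `R`-module with a finite
basis `b` and a family of `R`-linear maps `e s : P → Ω`.  `Faithful b e` says that the vectors
`(e s (b i))_s`, `i ∈ ι`, are `Ω`-linearly independent.  Faithful families are jointly injective
and are stable under tensor products.
-/
import Mathlib

set_option autoImplicit false

open scoped TensorProduct

namespace Fermat.Agent.S19.Abs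

section Faithful

variable {R Ω : Type*} [CommRing R] [Field Ω] [Algebra R Ω]

/-- `x ⊗ x' ↦ e x * e' x'` -/
noncomputable def mulMap {P P' : Type*} [AddCommGroup P] [Module R P] [AddCommGroup P']
    [Module R P'] (e : P →ₗ[R] Ω) (e' : P' →ₗ[R] Ω) : P ⊗[R] P' →ₗ[R] Ω :=
  (LinearMap.mul' R Ω).comp (TensorProduct.map e e')

@[simp] theorem mulMap_tmul {P P' : Type*} [AddCommGroup P] [Module R P] [AddCommGroup P']
    [Module R P'] (e : P →ₗ[R] Ω) (e' : P' →ₗ[R] Ω) (x : P) (x' : P') :
    mulMap e e' (x ⊗ₜ[R] x') = e x * e' x' := by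
  simp [mulMap]

/-- the vectors `(e s (b i))_s` are `Ω`-linearly independent -/
def Faithful {P : Type*} [AddCommGroup P] [Module R P] {ι S : Type*} [Fintype ι]
    (b : Module.Basis ι R P) (e : S → P →ₗ[R] Ω) : Prop :=
  ∀ c : ι → Ω, (∀ s, ∑ i, c i * e s (b i) = 0) → c = 0

theorem Faithful.eq_zero {P : Type*} [AddCommGroup P] [Module R P] {ι S : Type*} [Fintype ι]
    {b : Module.Basis ι R P} {e : S → P →ₗ[R] Ω} (h : Faithful b e)
    (hinj : Function.Injective (algebraMap R Ω)) (x : P) (hx : ∀ s, e s x = 0) : x = 0 := by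
  have hc := h (fun i => algebraMap R Ω (b.repr x i)) (by
    intro s
    have h1 : e s x = ∑ i, algebraMap R Ω (b.repr x i) * e s (b i) := by
      conv_lhs => rw [← b.sum_repr x]
      rw [map_sum]
      refine Finset.sum_congr rfl fun i _ => ?_
      rw [map_smul, Algebra.smul_def]
    rw [← h1, hx s])
  apply b.repr.injective
  ext i
  have := congrFun hc i
  simp only [Pi.zero_apply] at this
  rw [map_zero, Finsupp.zero_apply]
  exact hinj (by rw [this, map_zero])

theorem Faithful.eq_of_eq {P : Type*} [AddCommGroup P] [Module R P] {ι S : Type*} [Fintype ι]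
    {b : Module.Basis ι R P} {e : S → P →ₗ[R] Ω} (h : Faithful b e)
    (hinj : Function.Injective (algebraMap R Ω)) (x x' : P) (hx : ∀ s, e s x = e s x') :
    x = x' := by
  rw [← sub_eq_zero]
  refine h.eq_zero hinj _ fun s => ?_
  rw [map_sub, hx s, sub_self]

/-- tensor products of faithful families are faithful -/
theorem Faithful.tensor {P P' : Type*} [AddCommGroup P] [Module R P] [AddCommGroup P']
    [Module R P'] {ι ι' S S' : Type*} [Fintype ι] [Fintype ι']
    {b : Module.Basis ι R P} {e : S → P →ₗ[R] Ω} {b' : Module.Basis ι' R P'}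
    {e' : S' → P' →ₗ[R] Ω} (h : Faithful b e) (h' : Faithful b' e') :
    Faithful (b.tensorProduct b') (fun s : S × S' => mulMap (e s.1) (e' s.2)) := by
  intro c hc
  have key : ∀ (s' : S') (i : ι), ∑ i', c (i, i') * e' s' (b' i') = 0 := by
    intro s'
    have := h (fun i => ∑ i', c (i, i') * e' s' (b' i')) (by
      intro s
      have h1 := hc (s, s')
      rw [Fintype.sum_prod_type] at h1
      rw [← h1]
      refine Finset.sum_congr rfl fun i _ => ?_
      rw [Finset.sum_mul]
      refine Finset.sum_congr rfl fun i' _ => ?_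
      rw [Module.Basis.tensorProduct_apply, mulMap_tmul]
      ring)
    intro i
    exact congrFun this i
  funext ⟨i, i'⟩
  have := h' (fun i' => c (i, i')) (fun s' => key s' i)
  exact congrFun this i'

end Faithful

end Fermat.Agent.S19.Abs
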