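/-
S19 / S32, abstract block: basic structure of a Hopf order `Hs ⊂ Map(M, ℚ̄)`.

`Hs` is a finite free `ℤ_(ℓ)`-module; an `ℤ_(ℓ)`-basis stays `ℚ̄`-linearly independent (Artin), so
the evaluation maps `ev y`, `y ∈ M`, are jointly injective on `Hs`, `Hs ⊗ Hs`, `Hs ⊗ (Hs ⊗ Hs)`.
-/
import Mathlib
import Fermat.Agent.S19.Abs.Defs
import Fermat.Agent.S19.Abs.Artin
import Fermat.Agent.S19.Abs.Eval

set_option autoImplicit false

open scoped TensorProduct
open GaloisRep

namespace Fermat.Agent.S19.Abs

section Order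

variable {ℓ : ℕ} [Fact ℓ.Prime] {M : Type} [AddCommGroup M] {act : GQ → M → M}
  {Hs : Subalgebra (ratLocalizedAt ℓ) (M → Qb)}

theorem algebraMap_injective_Qb : Function.Injective (algebraMap (ratLocalizedAt ℓ) Qb) := by
  intro a b hab
  have h1 : algebraMap ℚ Qb (a : ℚ) = algebraMap ℚ Qb (b : ℚ) := hab
  exact Subtype.ext ((algebraMap ℚ Qb).injective h1)

theorem IsGalAction.surj (hact : IsGalAction act) (σ : GQ) (y : M) : ∃ y₀, act σ y₀ = y :=
  ⟨act σ⁻¹ y, by rw [← hact.mul, mul_inv_cancel, hact.one]⟩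

theorem IsGalAction.zero (hact : IsGalAction act) (σ : GQ) : act σ 0 = 0 := by
  have := hact.add σ 0 0
  rw [add_zero] at this
  exact left_eq_add.mp this

/-- evaluation at a point of `M` -/
noncomputable def ev (Hs : Subalgebra (ratLocalizedAt ℓ) (M → Qb)) (y : M) :
    Hs →ₐ[ratLocalizedAt ℓ] Qb :=
  (Pi.evalAlgHom (ratLocalizedAt ℓ) (fun _ : M => Qb) y).comp Hs.val

@[simp] theorem ev_apply (y : M) (φ : Hs) : ev Hs y φ = (φ : M → Qb) y := rfl

theorem ev_injective {φ ψ : Hs} (h : ∀ y, ev Hs y φ = ev Hs y ψ) : φ = ψ :=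
  Subtype.ext (funext h)

theorem IsHopfOrder.moduleFinite (h : IsHopfOrder ℓ act Hs) :
    Module.Finite (ratLocalizedAt ℓ) Hs :=
  Module.Finite.iff_fg.mpr h.fg

instance isTorsionFree_order : Module.IsTorsionFree (ratLocalizedAt ℓ) Hs := by
  refine Module.IsTorsionFree.of_smul_eq_zero fun r φ hr => ?_
  by_cases h0 : r = 0
  · exact Or.inl h0
  · right
    apply ev_injective
    intro y
    have h1 : ev Hs y (r • φ) = 0 := by rw [hr, map_zero]
    rw [map_smul, Algebra.smul_def, mul_eq_zero] at h1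
    rcases h1 with h1 | h1
    · exact absurd (algebraMap_injective_Qb (by rw [h1, map_zero])) h0
    · rw [h1, map_zero]

theorem IsHopfOrder.moduleFree (h : IsHopfOrder ℓ act Hs) :
    Module.Free (ratLocalizedAt ℓ) Hs :=
  haveI := h.moduleFinite
  Module.free_of_finite_type_torsion_free'

/-- the evaluation family is faithful on any basis of a Hopf order -/
theorem IsHopfOrder.faithful (hact : IsGalAction act) (h : IsHopfOrder ℓ act Hs)
    {ι : Type} [Fintype ι] (b : Module.Basis ι (ratLocalizedAt ℓ) Hs) :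
    Faithful b (fun y : M => (ev Hs y).toLinearMap) := by
  classical
  have hli : LinearIndependent (ratLocalizedAt ℓ) (fun i => ((b i : Hs) : M → Qb)) := by
    have := b.linearIndependent.map' (Subalgebra.toSubmodule Hs).subtype
      (Submodule.ker_subtype _)
    exact this
  have hQ := linearIndependent_Qb ℓ hact.surj (fun i => ((b i : Hs) : M → Qb))
    (fun i σ y => h.equivariant _ (b i).2 σ y) hli
  rw [Fintype.linearIndependent_iff] at hQ
  intro c hc
  funext i
  refine hQ c ?_ i
  funext y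
  have := hc y
  simpa [Finset.sum_apply, Pi.smul_apply, smul_eq_mul] using this

end Order

end Fermat.Agent.S19.Abs
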