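/-
S19 / S32, abstract block: comultiplication, counit and antipode of a Hopf order
`Hs ⊂ Map(M, ℚ̄)`, as algebra homomorphisms characterised pointwise.
-/
import Mathlib
import Fermat.Agent.S19.Abs.Order

set_option autoImplicit false
set_option linter.unusedSectionVars false

open scoped TensorProduct
open GaloisRep

namespace Fermat.Agent.S19.Abs

section Coalg

variable {ℓ : ℕ} [Fact ℓ.Prime] {M : Type} [AddCommGroup M] {act : GQ → M → M}
  {Hs : Subalgebra (ratLocalizedAt ℓ) (M → Qb)}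

/-- evaluation at a pair of points -/
noncomputable def ev₂ (Hs : Subalgebra (ratLocalizedAt ℓ) (M → Qb)) (y y' : M) :
    Hs ⊗[ratLocalizedAt ℓ] Hs →ₐ[ratLocalizedAt ℓ] Qb :=
  Algebra.TensorProduct.lift (ev Hs y) (ev Hs y') (fun _ _ => Commute.all _ _)

@[simp] theorem ev₂_tmul (y y' : M) (φ ψ : Hs) :
    ev₂ Hs y y' (φ ⊗ₜ[ratLocalizedAt ℓ] ψ) = (φ : M → Qb) y * (ψ : M → Qb) y' := by
  simp [ev₂]

theorem ev₂_toLinearMap (y y' : M) :
    (ev₂ Hs y y').toLinearMap = mulMap (ev Hs y).toLinearMap (ev Hs y').toLinearMap := by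
  apply TensorProduct.ext'
  intro φ ψ
  simp

/-- evaluation at a triple of points -/
noncomputable def ev₃ (Hs : Subalgebra (ratLocalizedAt ℓ) (M → Qb)) (y y' y'' : M) :
    Hs ⊗[ratLocalizedAt ℓ] (Hs ⊗[ratLocalizedAt ℓ] Hs) →ₐ[ratLocalizedAt ℓ] Qb :=
  Algebra.TensorProduct.lift (ev Hs y) (ev₂ Hs y' y'') (fun _ _ => Commute.all _ _)

@[simp] theorem ev₃_tmul (y y' y'' : M) (φ : Hs) (x : Hs ⊗[ratLocalizedAt ℓ] Hs) :
    ev₃ Hs y y' y'' (φ ⊗ₜ[ratLocalizedAt ℓ] x) = (φ : M → Qb) y * ev₂ Hs y' y'' x := by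
  simp [ev₃]

theorem ev₃_toLinearMap (y y' y'' : M) :
    (ev₃ Hs y y' y'').toLinearMap =
      mulMap (ev Hs y).toLinearMap
        (mulMap (ev Hs y').toLinearMap (ev Hs y'').toLinearMap) := by
  apply TensorProduct.ext'
  intro φ x
  rw [← ev₂_toLinearMap]
  simp

theorem IsHopfOrder.ev₂_injective (hact : IsGalAction act) (h : IsHopfOrder ℓ act Hs)
    {x x' : Hs ⊗[ratLocalizedAt ℓ] Hs} (hx : ∀ y y', ev₂ Hs y y' x = ev₂ Hs y y' x') :
    x = x' := by
  haveI := h.moduleFinite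
  haveI := h.moduleFree
  let b := Module.Free.chooseBasis (ratLocalizedAt ℓ) Hs
  have hf := (h.faithful hact b).tensor (h.faithful hact b)
  refine hf.eq_of_eq algebraMap_injective_Qb x x' fun s => ?_
  have := hx s.1 s.2
  rw [← AlgHom.toLinearMap_apply, ← AlgHom.toLinearMap_apply, ev₂_toLinearMap] at this
  exact this

theorem IsHopfOrder.ev₃_injective (hact : IsGalAction act) (h : IsHopfOrder ℓ act Hs)
    {x x' : Hs ⊗[ratLocalizedAt ℓ] (Hs ⊗[ratLocalizedAt ℓ] Hs)}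
    (hx : ∀ y y' y'', ev₃ Hs y y' y'' x = ev₃ Hs y y' y'' x') : x = x' := by
  haveI := h.moduleFinite
  haveI := h.moduleFree
  let b := Module.Free.chooseBasis (ratLocalizedAt ℓ) Hs
  have hf := (h.faithful hact b).tensor ((h.faithful hact b).tensor (h.faithful hact b))
  refine hf.eq_of_eq algebraMap_injective_Qb x x' fun s => ?_
  have := hx s.1 s.2.1 s.2.2
  rw [← AlgHom.toLinearMap_apply, ← AlgHom.toLinearMap_apply, ev₃_toLinearMap] at this
  exact this

/-! ### comultiplication -/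

theorem IsHopfOrder.exists_comul (h : IsHopfOrder ℓ act Hs) (φ : Hs) :
    ∃ x : Hs ⊗[ratLocalizedAt ℓ] Hs, ∀ y y', ev₂ Hs y y' x = (φ : M → Qb) (y + y') := by
  obtain ⟨n, a, b, ha, hb, hab⟩ := h.comul φ.1 φ.2
  refine ⟨∑ j, (⟨a j, ha j⟩ : Hs) ⊗ₜ[ratLocalizedAt ℓ] (⟨b j, hb j⟩ : Hs), fun y y' => ?_⟩
  rw [map_sum, hab]
  simp

/-- the comultiplication, as a function -/
noncomputable def comulFun (h : IsHopfOrder ℓ act Hs) (φ : Hs) : Hs ⊗[ratLocalizedAt ℓ] Hs :=
  (h.exists_comul φ).choose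

theorem ev₂_comulFun (h : IsHopfOrder ℓ act Hs) (φ : Hs) (y y' : M) :
    ev₂ Hs y y' (comulFun h φ) = (φ : M → Qb) (y + y') :=
  (h.exists_comul φ).choose_spec y y'

/-- the comultiplication `φ ↦ ((y, y') ↦ φ (y + y'))` -/
noncomputable def comulHom (hact : IsGalAction act) (h : IsHopfOrder ℓ act Hs) :
    Hs →ₐ[ratLocalizedAt ℓ] Hs ⊗[ratLocalizedAt ℓ] Hs where
  toFun := comulFun h
  map_one' := h.ev₂_injective hact fun y y' => by
    rw [ev₂_comulFun, map_one]; rfl
  map_mul' φ ψ := h.ev₂_injective hact fun y y' => by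
    rw [ev₂_comulFun, map_mul, ev₂_comulFun, ev₂_comulFun]; rfl
  map_zero' := h.ev₂_injective hact fun y y' => by
    rw [ev₂_comulFun, map_zero]; rfl
  map_add' φ ψ := h.ev₂_injective hact fun y y' => by
    rw [ev₂_comulFun, map_add, ev₂_comulFun, ev₂_comulFun]; rfl
  commutes' r := h.ev₂_injective hact fun y y' => by
    rw [ev₂_comulFun, AlgHom.commutes]; rfl

@[simp] theorem ev₂_comulHom (hact : IsGalAction act) (h : IsHopfOrder ℓ act Hs) (φ : Hs)
    (y y' : M) : ev₂ Hs y y' (comulHom hact h φ) = (φ : M → Qb) (y + y') :=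
  ev₂_comulFun h φ y y'

/-! ### counit -/

theorem IsHopfOrder.exists_counit (hact : IsGalAction act) (h : IsHopfOrder ℓ act Hs) (φ : Hs) :
    ∃ r : ratLocalizedAt ℓ, algebraMap (ratLocalizedAt ℓ) Qb r = (φ : M → Qb) 0 := by
  have hfix : ∀ σ : GQ, σ ((φ : M → Qb) 0) = (φ : M → Qb) 0 := by
    intro σ
    rw [← h.equivariant φ.1 φ.2 σ 0, hact.zero]
  obtain ⟨q, hq⟩ := Fermat.Agent.S51.exists_rat_of_fixed _ hfix
  haveI := h.moduleFinite
  have hint : IsIntegral (ratLocalizedAt ℓ) φ := Algebra.IsIntegral.isIntegral φ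
  have hint' : IsIntegral (ratLocalizedAt ℓ) ((φ : M → Qb) 0) := hint.map (ev Hs 0)
  rw [← hq] at hint'
  have hq' : IsIntegral (ratLocalizedAt ℓ) q :=
    (isIntegral_algHom_iff (IsScalarTower.toAlgHom (ratLocalizedAt ℓ) ℚ Qb)
      (algebraMap ℚ Qb).injective).mp hint'
  obtain ⟨r, hr⟩ := IsIntegrallyClosed.isIntegral_iff.mp hq'
  refine ⟨r, ?_⟩
  rw [← hq, ← hr]
  rfl

/-- the counit, as a function -/
noncomputable def counitFun (hact : IsGalAction act) (h : IsHopfOrder ℓ act Hs) (φ : Hs) :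
    ratLocalizedAt ℓ :=
  (h.exists_counit hact φ).choose

theorem algebraMap_counitFun (hact : IsGalAction act) (h : IsHopfOrder ℓ act Hs) (φ : Hs) :
    algebraMap (ratLocalizedAt ℓ) Qb (counitFun hact h φ) = (φ : M → Qb) 0 :=
  (h.exists_counit hact φ).choose_spec

/-- the counit `φ ↦ φ 0` -/
noncomputable def counitHom (hact : IsGalAction act) (h : IsHopfOrder ℓ act Hs) :
    Hs →ₐ[ratLocalizedAt ℓ] ratLocalizedAt ℓ where
  toFun := counitFun hact h
  map_one' := algebraMap_injective_Qb (by rw [algebraMap_counitFun, map_one]; rfl)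
  map_mul' φ ψ := algebraMap_injective_Qb (by
    rw [algebraMap_counitFun, map_mul, algebraMap_counitFun, algebraMap_counitFun]; rfl)
  map_zero' := algebraMap_injective_Qb (by rw [algebraMap_counitFun, map_zero]; rfl)
  map_add' φ ψ := algebraMap_injective_Qb (by
    rw [algebraMap_counitFun, map_add, algebraMap_counitFun, algebraMap_counitFun]; rfl)
  commutes' r := algebraMap_injective_Qb (by rw [algebraMap_counitFun]; rfl)

@[simp] theorem algebraMap_counitHom (hact : IsGalAction act) (h : IsHopfOrder ℓ act Hs)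
    (φ : Hs) : algebraMap (ratLocalizedAt ℓ) Qb (counitHom hact h φ) = (φ : M → Qb) 0 :=
  algebraMap_counitFun hact h φ

end Coalg

end Fermat.Agent.S19.Abs
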