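/-
S19 / S32, abstract block: the Hopf algebra structure on a Hopf order `Hs ⊂ Map(M, ℚ̄)`.
-/
import Mathlib
import Fermat.Agent.S19.Abs.Coalg

set_option autoImplicit false
set_option linter.unusedSectionVars false
set_option linter.style.haveILetI false

open scoped TensorProduct
open GaloisRep

namespace Fermat.Agent.S19.Abs

section Hopf

variable {ℓ : ℕ} [Fact ℓ.Prime] {M : Type} [AddCommGroup M] {act : GQ → M → M}
  {Hs : Subalgebra (ratLocalizedAt ℓ) (M → Qb)}

theorem ev₃_assoc_tmul (y y' y'' : M) (x : Hs ⊗[ratLocalizedAt ℓ] Hs) (b : Hs) :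
    ev₃ Hs y y' y'' (Algebra.TensorProduct.assoc (ratLocalizedAt ℓ) (ratLocalizedAt ℓ)
      (ratLocalizedAt ℓ) Hs Hs Hs (x ⊗ₜ[ratLocalizedAt ℓ] b)) =
      ev₂ Hs y y' x * (b : M → Qb) y'' := by
  induction x using TensorProduct.induction_on with
  | zero => simp
  | tmul a a' =>
    rw [Algebra.TensorProduct.assoc_tmul, ev₃_tmul, ev₂_tmul, ev₂_tmul, mul_assoc]
  | add x x' hx hx' =>
    rw [TensorProduct.add_tmul, map_add, map_add, hx, hx', map_add, add_mul]

variable (hact : IsGalAction act) (h : IsHopfOrder ℓ act Hs)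

theorem ev₃_comp_assoc_map_comul (y y' y'' : M) :
    (ev₃ Hs y y' y'').comp
      ((Algebra.TensorProduct.assoc (ratLocalizedAt ℓ) (ratLocalizedAt ℓ)
        (ratLocalizedAt ℓ) Hs Hs Hs).toAlgHom.comp
        (Algebra.TensorProduct.map (comulHom hact h) (.id (ratLocalizedAt ℓ) Hs))) =
      ev₂ Hs (y + y') y'' := by
  apply Algebra.TensorProduct.ext'
  intro a b
  simp only [AlgHom.comp_apply, Algebra.TensorProduct.map_tmul, AlgHom.id_apply,
    AlgEquiv.toAlgHom_apply]
  rw [ev₃_assoc_tmul, ev₂_comulHom, ev₂_tmul]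

theorem ev₃_comp_map_comul (y y' y'' : M) :
    (ev₃ Hs y y' y'').comp
      (Algebra.TensorProduct.map (.id (ratLocalizedAt ℓ) Hs) (comulHom hact h)) =
      ev₂ Hs y (y' + y'') := by
  apply Algebra.TensorProduct.ext'
  intro a b
  simp only [AlgHom.comp_apply, Algebra.TensorProduct.map_tmul, AlgHom.id_apply]
  rw [ev₃_tmul, ev₂_comulHom, ev₂_tmul]

theorem comulHom_coassoc :
    (Algebra.TensorProduct.assoc (ratLocalizedAt ℓ) (ratLocalizedAt ℓ)
        (ratLocalizedAt ℓ) Hs Hs Hs).toAlgHom.comp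
      ((Algebra.TensorProduct.map (comulHom hact h) (.id (ratLocalizedAt ℓ) Hs)).comp
        (comulHom hact h)) =
    (Algebra.TensorProduct.map (.id (ratLocalizedAt ℓ) Hs) (comulHom hact h)).comp
      (comulHom hact h) := by
  ext φ
  apply h.ev₃_injective hact
  intro y y' y''
  have h1 := congrArg (fun F => F (comulHom hact h φ)) (ev₃_comp_assoc_map_comul hact h y y' y'')
  have h2 := congrArg (fun F => F (comulHom hact h φ)) (ev₃_comp_map_comul hact h y y' y'')
  simp only [AlgHom.comp_apply] at h1 h2 ⊢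
  rw [h1, h2, ev₂_comulHom, ev₂_comulHom, add_assoc]

theorem ev_comp_lid_map_counit (y : M) :
    (ev Hs y).comp ((Algebra.TensorProduct.lid (ratLocalizedAt ℓ) Hs).toAlgHom.comp
      (Algebra.TensorProduct.map (counitHom hact h) (.id (ratLocalizedAt ℓ) Hs))) =
      ev₂ Hs 0 y := by
  apply Algebra.TensorProduct.ext'
  intro a b
  simp only [AlgHom.comp_apply, Algebra.TensorProduct.map_tmul, AlgHom.id_apply,
    AlgEquiv.toAlgHom_apply, Algebra.TensorProduct.lid_tmul]
  rw [map_smul, Algebra.smul_def, algebraMap_counitHom, ev₂_tmul, ev_apply]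

theorem ev_comp_rid_map_counit (y : M) :
    (ev Hs y).comp ((Algebra.TensorProduct.rid (ratLocalizedAt ℓ) (ratLocalizedAt ℓ) Hs).toAlgHom.comp
      (Algebra.TensorProduct.map (.id (ratLocalizedAt ℓ) Hs) (counitHom hact h))) =
      ev₂ Hs y 0 := by
  apply Algebra.TensorProduct.ext'
  intro a b
  simp only [AlgHom.comp_apply, Algebra.TensorProduct.map_tmul, AlgHom.id_apply,
    AlgEquiv.toAlgHom_apply, Algebra.TensorProduct.rid_tmul]
  rw [map_smul, Algebra.smul_def, algebraMap_counitHom, ev₂_tmul, ev_apply, mul_comm]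

theorem comulHom_rTensor :
    (Algebra.TensorProduct.map (counitHom hact h) (.id (ratLocalizedAt ℓ) Hs)).comp
      (comulHom hact h) = (Algebra.TensorProduct.lid (ratLocalizedAt ℓ) Hs).symm := by
  ext φ
  apply (Algebra.TensorProduct.lid (ratLocalizedAt ℓ) Hs).injective
  rw [AlgEquiv.toAlgHom_apply, AlgEquiv.apply_symm_apply]
  apply ev_injective
  intro y
  have h1 := congrArg (fun F => F (comulHom hact h φ)) (ev_comp_lid_map_counit hact h y)
  simp only [AlgHom.comp_apply, AlgEquiv.toAlgHom_apply] at h1 ⊢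
  rw [h1, ev₂_comulHom, zero_add, ev_apply]

theorem comulHom_lTensor :
    (Algebra.TensorProduct.map (.id (ratLocalizedAt ℓ) Hs) (counitHom hact h)).comp
      (comulHom hact h) =
      (Algebra.TensorProduct.rid (ratLocalizedAt ℓ) (ratLocalizedAt ℓ) Hs).symm := by
  ext φ
  apply (Algebra.TensorProduct.rid (ratLocalizedAt ℓ) (ratLocalizedAt ℓ) Hs).injective
  rw [AlgEquiv.toAlgHom_apply, AlgEquiv.apply_symm_apply]
  apply ev_injective
  intro y
  have h1 := congrArg (fun F => F (comulHom hact h φ)) (ev_comp_rid_map_counit hact h y)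
  simp only [AlgHom.comp_apply, AlgEquiv.toAlgHom_apply] at h1 ⊢
  rw [h1, ev₂_comulHom, add_zero, ev_apply]

/-- the bialgebra structure on a Hopf order -/
@[reducible] noncomputable def orderBialgebra : Bialgebra (ratLocalizedAt ℓ) Hs :=
  Bialgebra.ofAlgHom (comulHom hact h) (counitHom hact h) (comulHom_coassoc hact h)
    (comulHom_rTensor hact h) (comulHom_lTensor hact h)

end Hopf

end Fermat.Agent.S19.Abs
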