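/-
S19 / S32, abstract block: the antipode of a Hopf order `Hs ⊂ Map(M, ℚ̄)` (`M` finite), the Hopf
algebra structure and cocommutativity.
-/
import Mathlib
import Fermat.Agent.S19.Abs.Hopf

set_option autoImplicit false
set_option linter.unusedSectionVars false
set_option linter.style.haveILetI false

open scoped TensorProduct
open GaloisRep

namespace Fermat.Agent.S19.Abs

section Antipode

variable {ℓ : ℕ} [Fact ℓ.Prime] {M : Type} [AddCommGroup M] {act : GQ → M → M}
  {Hs : Subalgebra (ratLocalizedAt ℓ) (M → Qb)}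

theorem IsHopfOrder.comp_nsmul_mem (h : IsHopfOrder ℓ act Hs) (n : ℕ) :
    ∀ φ ∈ Hs, (fun y => φ ((n + 1) • y)) ∈ Hs := by
  induction n with
  | zero =>
    intro φ hφ
    simpa using hφ
  | succ n ih =>
    intro φ hφ
    obtain ⟨m, a, b, ha, hb, hab⟩ := h.comul φ hφ
    have : (fun y => φ ((n + 1 + 1) • y)) = ∑ j, (fun y => a j ((n + 1) • y)) * b j := by
      funext y
      rw [succ_nsmul, hab, Finset.sum_apply]
      rfl
    rw [this]
    exact Subalgebra.sum_mem _ fun j _ => Subalgebra.mul_mem _ (ih _ (ha j)) (hb j)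

theorem IsHopfOrder.comp_neg_mem [Finite M] (h : IsHopfOrder ℓ act Hs) :
    ∀ φ ∈ Hs, (fun y => φ (-y)) ∈ Hs := by
  intro φ hφ
  have hpos : 0 < Nat.card M := Nat.card_pos
  have key : ∀ y : M, (2 * Nat.card M - 2 + 1) • y = -y := by
    intro y
    rw [eq_neg_iff_add_eq_zero, ← succ_nsmul]
    have : 2 * Nat.card M - 2 + 1 + 1 = Nat.card M * 2 := by omega
    rw [this, mul_nsmul, card_nsmul_eq_zero', nsmul_zero]
  have := h.comp_nsmul_mem (2 * Nat.card M - 2) φ hφ
  simpa only [key] using this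

/-- the antipode `φ ↦ φ ∘ neg` -/
noncomputable def negHom [Finite M] (h : IsHopfOrder ℓ act Hs) : Hs →ₐ[ratLocalizedAt ℓ] Hs where
  toFun φ := ⟨fun y => (φ : M → Qb) (-y), h.comp_neg_mem φ.1 φ.2⟩
  map_one' := rfl
  map_mul' _ _ := rfl
  map_zero' := rfl
  map_add' _ _ := rfl
  commutes' _ := rfl

@[simp] theorem negHom_apply [Finite M] (h : IsHopfOrder ℓ act Hs) (φ : Hs) (y : M) :
    (negHom h φ : M → Qb) y = (φ : M → Qb) (-y) := rfl

variable [Finite M] (hact : IsGalAction act) (h : IsHopfOrder ℓ act Hs)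

theorem ev_comp_lift_neg_id (y : M) :
    (ev Hs y).comp (Algebra.TensorProduct.lift (negHom h) (.id (ratLocalizedAt ℓ) Hs)
      (fun _ _ => Commute.all _ _)) = ev₂ Hs (-y) y := by
  apply Algebra.TensorProduct.ext'
  intro a b
  simp only [AlgHom.comp_apply, Algebra.TensorProduct.lift_tmul, AlgHom.id_apply, map_mul,
    ev_apply, negHom_apply, ev₂_tmul]

theorem ev_comp_lift_id_neg (y : M) :
    (ev Hs y).comp (Algebra.TensorProduct.lift (.id (ratLocalizedAt ℓ) Hs) (negHom h)
      (fun _ _ => Commute.all _ _)) = ev₂ Hs y (-y) := by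
  apply Algebra.TensorProduct.ext'
  intro a b
  simp only [AlgHom.comp_apply, Algebra.TensorProduct.lift_tmul, AlgHom.id_apply, map_mul,
    ev_apply, negHom_apply, ev₂_tmul]

/-- the Hopf algebra structure on a Hopf order -/
@[reducible] noncomputable def orderHopfAlgebra : HopfAlgebra (ratLocalizedAt ℓ) Hs :=
  letI := orderBialgebra hact h
  HopfAlgebra.ofAlgHom (negHom h)
    (by
      refine AlgHom.ext fun φ => ?_
      apply ev_injective
      intro y
      have h1 := congrArg (fun F => F (comulHom hact h φ)) (ev_comp_lift_neg_id h y)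
      simp only [AlgHom.comp_apply] at h1
      rw [AlgHom.comp_apply, AlgHom.comp_apply]
      have e1 : Bialgebra.comulAlgHom (ratLocalizedAt ℓ) Hs φ = comulHom hact h φ := rfl
      have e2 : Bialgebra.counitAlgHom (ratLocalizedAt ℓ) Hs φ = counitHom hact h φ := rfl
      rw [e1, e2]
      refine h1.trans ?_
      rw [ev₂_comulHom, neg_add_cancel, Algebra.ofId_apply, AlgHom.commutes,
        algebraMap_counitHom])
    (by
      refine AlgHom.ext fun φ => ?_
      apply ev_injective
      intro y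
      have h1 := congrArg (fun F => F (comulHom hact h φ)) (ev_comp_lift_id_neg h y)
      simp only [AlgHom.comp_apply] at h1
      rw [AlgHom.comp_apply, AlgHom.comp_apply]
      have e1 : Bialgebra.comulAlgHom (ratLocalizedAt ℓ) Hs φ = comulHom hact h φ := rfl
      have e2 : Bialgebra.counitAlgHom (ratLocalizedAt ℓ) Hs φ = counitHom hact h φ := rfl
      rw [e1, e2]
      refine h1.trans ?_
      rw [ev₂_comulHom, add_neg_cancel, Algebra.ofId_apply, AlgHom.commutes,
        algebraMap_counitHom])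

theorem ev₂_comm (y y' : M) (x : Hs ⊗[ratLocalizedAt ℓ] Hs) :
    ev₂ Hs y y' (TensorProduct.comm (ratLocalizedAt ℓ) Hs Hs x) = ev₂ Hs y' y x := by
  induction x using TensorProduct.induction_on with
  | zero => simp
  | tmul a b => rw [TensorProduct.comm_tmul, ev₂_tmul, ev₂_tmul, mul_comm]
  | add x x' hx hx' => rw [map_add, map_add, hx, hx', map_add]

theorem orderHopfAlgebra_isCocomm :
    letI := orderHopfAlgebra hact h
    Coalgebra.IsCocomm (ratLocalizedAt ℓ) Hs := by
  letI := orderHopfAlgebra hact h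
  refine ⟨LinearMap.ext fun φ => ?_⟩
  apply h.ev₂_injective hact
  intro y y'
  change ev₂ Hs y y' (TensorProduct.comm (ratLocalizedAt ℓ) Hs Hs (comulHom hact h φ)) =
    ev₂ Hs y y' (comulHom hact h φ)
  rw [ev₂_comm, ev₂_comulHom, ev₂_comulHom, add_comm]

end Antipode

end Fermat.Agent.S19.Abs
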