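/-
S19 / S32, abstract block: a Hopf order `Hs ⊂ Map(M, ℚ̄)` all of whose `ℚ̄`-points are evaluations
gives a Hopf model of `(M, act)` (the frozen `∃`-shape of S19 / `IsFlatAt`).
-/
import Mathlib
import Fermat.Agent.S19.Abs.Antipode

set_option autoImplicit false
set_option linter.unusedSectionVars false
set_option linter.style.haveILetI false

open scoped TensorProduct
open GaloisRep

namespace Fermat.Agent.S19.Abs

section Model

variable {ℓ : ℕ} [Fact ℓ.Prime] {M : Type} [AddCommGroup M] {act : GQ → M → M}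
  {Hs : Subalgebra (ratLocalizedAt ℓ) (M → Qb)}

theorem IsHopfOrder.ev_inj (h : IsHopfOrder ℓ act Hs) {y y' : M} (hyy : ev Hs y = ev Hs y') :
    y = y' := by
  by_contra hne
  obtain ⟨φ, hφ, hφy⟩ := h.separates y y' hne
  exact hφy (congrArg (fun F => F ⟨φ, hφ⟩) hyy)

variable [Finite M]

/-- **Hopf orders give Hopf models**, provided every `ℚ̄`-point of `Hs` is an evaluation. -/
theorem hasHopfModel_of_points (hact : IsGalAction act) (h : IsHopfOrder ℓ act Hs)
    (hpts : ∀ χ : Hs →ₐ[ratLocalizedAt ℓ] Qb, ∃ y : M, ∀ φ : Hs, χ φ = (φ : M → Qb) y) :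
    HasHopfModel ℓ act := by
  letI inst : HopfAlgebra (ratLocalizedAt ℓ) Hs := orderHopfAlgebra hact h
  refine ⟨Hs, inferInstance, inst, h.moduleFinite, ?_, orderHopfAlgebra_isCocomm hact h, ?_⟩
  · haveI := h.moduleFree
    exact (inferInstance : Module.Flat (ratLocalizedAt ℓ) Hs)
  · have hbij : Function.Bijective
        (fun y : M => (WithConv.toConv (ev Hs y) :
          WithConv (Hs →ₐ[ratLocalizedAt ℓ] AlgebraicClosure ℚ))) := by
      constructor
      · intro y y' hyy
        exact h.ev_inj (WithConv.toConv_injective hyy)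
      · intro χ
        obtain ⟨y, hy⟩ := hpts χ.ofConv
        exact ⟨y, by
          apply WithConv.ofConv_injective
          exact AlgHom.ext fun φ => (hy φ).symm⟩
    let e₀ := Equiv.ofBijective _ hbij
    have he₀ : ∀ y, e₀ y = WithConv.toConv (ev Hs y) := fun y => rfl
    refine ⟨e₀.symm, ?_, ?_⟩
    · intro f g
      obtain ⟨y, rfl⟩ := e₀.surjective f
      obtain ⟨y', rfl⟩ := e₀.surjective g
      rw [Equiv.symm_apply_apply, Equiv.symm_apply_apply, Equiv.symm_apply_eq]
      apply WithConv.ofConv_injective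
      refine AlgHom.ext fun φ => ?_
      have h1 := AlgHom.convMul_apply (e₀ y) (e₀ y') φ
      refine h1.trans ?_
      have e1 : (Coalgebra.comul (R := ratLocalizedAt ℓ) φ) = comulHom hact h φ := rfl
      rw [e1]
      exact (ev₂_comulHom hact h φ y y')
    · intro σ f g hfg
      obtain ⟨y, rfl⟩ := e₀.surjective f
      obtain ⟨y', rfl⟩ := e₀.surjective g
      rw [Equiv.symm_apply_apply, Equiv.symm_apply_apply]
      apply h.ev_inj
      refine AlgHom.ext fun φ => ?_
      have := hfg φ
      rw [ev_apply, ev_apply, h.equivariant φ.1 φ.2]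
      exact this

end Model

end Fermat.Agent.S19.Abs
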