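/-
S19 / S32, abstract block: **Hopf orders give Hopf models.**

A Hopf order `Hs ⊂ Map(M, ℚ̄)` (equivariant, finitely generated, point-separating, closed under
comultiplication) on a finite abelian group `M` with `G_ℚ`-action is a finite flat cocommutative
Hopf algebra over `ℤ_(ℓ)` whose `ℚ̄`-points are `M`, compatibly with the group law and the Galois
action: the frozen `∃`-shape of S19 / `GaloisRepAdic.IsFlatAt`.
-/
import Mathlib
import Fermat.Agent.S19.Abs.Model
import Fermat.Agent.S19.Base.Points

set_option autoImplicit false

open GaloisRep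

namespace Fermat.Agent.S19.Abs

/-- **Main theorem of the abstract block.** -/
theorem hasHopfModel_of_isHopfOrder (ℓ : ℕ) [Fact ℓ.Prime] {M : Type} [AddCommGroup M]
    [Finite M] {act : GQ → M → M} (hact : IsGalAction act)
    {Hs : Subalgebra (ratLocalizedAt ℓ) (M → Qb)} (h : IsHopfOrder ℓ act Hs) :
    HasHopfModel ℓ act :=
  hasHopfModel_of_points hact h (Fermat.Agent.S19.Base.exists_eq_eval ℓ hact h)

end Fermat.Agent.S19.Abs
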