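/-
S19, final interface: the `ℓ^k`-torsion of `J₀(p)(ℚ̄)` as a finite abelian group with Galois action,
and the reduction of the frozen statement S19 to the existence of a Hopf order on it.
-/
import Mathlib
import Fermat.Prelude.Def_ModularCurve_ArithmeticGalois
import Fermat.Agent.S19.Abs.HopfOfOrder
import Fermat.Agent.N4F.Tors.KummerPlug

set_option autoImplicit false

open ModularCurve GaloisRep

namespace Fermat.Agent.S19.Abs

section Torsion

variable (p : ℕ) (ℓ : ℕ) (k : ℕ)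

/-- the `ℓ^k`-torsion of `J₀(p)(ℚ̄)`, exactly as in the frozen statement S19 -/
abbrev Tors : Type := ↥(Submodule.torsionBy ℤ (JZero p) ((ℓ : ℤ) ^ k))

variable {p ℓ k}

theorem smul_mem_tors (σ : GQ) {y : JZero p}
    (hy : y ∈ Submodule.torsionBy ℤ (JZero p) ((ℓ : ℤ) ^ k)) :
    σ • y ∈ Submodule.torsionBy ℤ (JZero p) ((ℓ : ℤ) ^ k) := by
  rw [Submodule.mem_torsionBy_iff] at hy ⊢
  have h1 : ((ℓ : ℤ) ^ k) • (σ • y) = σ • (((ℓ : ℤ) ^ k) • y) :=
    (map_zsmul (DistribSMul.toAddMonoidHom (JZero p) σ) _ y).symm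
  rw [h1, hy, smul_zero]

variable (p ℓ k)

/-- the Galois action on the torsion -/
noncomputable def torsAct : GQ → Tors p ℓ k → Tors p ℓ k :=
  fun σ y => ⟨σ • (y : JZero p), smul_mem_tors σ y.2⟩

@[simp] theorem coe_torsAct (σ : GQ) (y : Tors p ℓ k) :
    ((torsAct p ℓ k σ y : Tors p ℓ k) : JZero p) = σ • (y : JZero p) := rfl

theorem isGalAction_torsAct : IsGalAction (torsAct p ℓ k) where
  one _ := Subtype.ext (one_smul _ _)
  mul σ τ _ := Subtype.ext (mul_smul σ τ _)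
  add σ _ _ := Subtype.ext (smul_add σ _ _)

theorem finite_tors [NeZero p] (hℓ : 0 < ℓ) : Finite (Tors p ℓ k) := by
  have hfin := Fermat.Agent.N4F.Tors.KummerPlug.torsionFinite p (ℓ ^ k) (pow_pos hℓ k)
  refine Finite.of_injective
    (fun y : Tors p ℓ k => (⟨(y : JZero p), ?_⟩ : Fermat.Agent.N4F.Res.Jtors p (ℓ ^ k))) ?_
  · rw [Fermat.Agent.N4F.Res.mem_Jtors_iff]
    have := (Submodule.mem_torsionBy_iff _ _).mp y.2
    rw [← natCast_zsmul]
    push_cast
    exact this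
  · intro y y' hyy
    exact Subtype.ext (congrArg (fun z : Fermat.Agent.N4F.Res.Jtors p (ℓ ^ k) => (z : JZero p)) hyy)

/-- **S19 from a Hopf order on the torsion.** -/
theorem s19_of_isHopfOrder [NeZero p] [Fact ℓ.Prime]
    {Hs : Subalgebra (ratLocalizedAt ℓ) (Tors p ℓ k → Qb)}
    (h : IsHopfOrder ℓ (torsAct p ℓ k) Hs) :
    ∃ (H : Type) (_ : CommRing H) (_ : HopfAlgebra (GaloisRep.ratLocalizedAt ℓ) H),
      Module.Finite (GaloisRep.ratLocalizedAt ℓ) H ∧ Module.Flat (GaloisRep.ratLocalizedAt ℓ) H ∧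
      Coalgebra.IsCocomm (GaloisRep.ratLocalizedAt ℓ) H ∧
      ∃ e : WithConv (H →ₐ[GaloisRep.ratLocalizedAt ℓ] AlgebraicClosure ℚ) ≃
          ↥(Submodule.torsionBy ℤ (JZero p) ((ℓ : ℤ) ^ k)),
        (∀ f g, e (f * g) = e f + e g) ∧
        ∀ (σ : AlgebraicClosure ℚ ≃ₐ[ℚ] AlgebraicClosure ℚ)
          (f g : WithConv (H →ₐ[GaloisRep.ratLocalizedAt ℓ] AlgebraicClosure ℚ)),
          (∀ h : H, g h = σ (f h)) → ((e g : JZero p)) = σ • (e f : JZero p) := by
  have : Finite (Tors p ℓ k) := finite_tors p ℓ k (Fact.out : ℓ.Prime).pos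
  obtain ⟨H, i1, i2, h1, h2, h3, e, he1, he2⟩ :=
    hasHopfModel_of_isHopfOrder ℓ (isGalAction_torsAct p ℓ k) h
  exact ⟨H, i1, i2, h1, h2, h3, e, he1, fun σ f g hfg =>
    congrArg (fun z : Tors p ℓ k => (z : JZero p)) (he2 σ f g hfg)⟩

end Torsion

end Fermat.Agent.S19.Abs
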