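/-
S19, top wiring: the frozen statement S19 from the deliverable of the order layer
(`Coord.OrderTarget`) and a coordinate system on `J₀(p)(ℚ̄)` at a place over `ℓ`
(the deliverable of the geometric layer).
-/
import Mathlib
import Fermat.Agent.S19.Abs.Torsion
import Fermat.Agent.S19.Coord.Defs
import Fermat.Agent.N4F.Continuity

set_option autoImplicit false

open ModularCurve GaloisRep

namespace Fermat.Agent.S19.Abs

section TopWire

/-- the Galois action on `J₀(p)(ℚ̄)`, as a plain function -/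
noncomputable def galActJ (p : ℕ) : GQ → JZero p → JZero p := fun σ y => σ • y

@[simp] theorem galActJ_apply (p : ℕ) (σ : GQ) (y : JZero p) : galActJ p σ y = σ • y := rfl

theorem isGalAction_galActJ (p : ℕ) : IsGalAction (galActJ p) where
  one _ := one_smul _ _
  mul σ τ _ := mul_smul σ τ _
  add σ _ _ := smul_add σ _ _

/-- a Hopf order on the `ℓ^k`-torsion from the order layer and a coordinate system -/
theorem exists_isHopfOrder_tors_of_orderTarget (hOT : Coord.OrderTarget)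
    (p : ℕ) [NeZero p] (ℓ : ℕ) [Fact ℓ.Prime] (k : ℕ)
    (A : ValuationSubring Qb) (hA : A.LiesOverPrime ℓ)
    (C : Coord.CoordSystem ℓ A (JZero p) (galActJ p)) :
    ∃ Hs : Subalgebra (ratLocalizedAt ℓ) (Tors p ℓ k → Qb),
      IsHopfOrder ℓ (torsAct p ℓ k) Hs := by
  have hfin : Finite (Tors p ℓ k) := finite_tors p ℓ k (Fact.out : ℓ.Prime).pos
  exact hOT ℓ A hA (JZero p) (galActJ p) (isGalAction_galActJ p) C
    (fun y => Fermat.Agent.N4F.Continuity.exists_fixing p y)
    (Submodule.torsionBy ℤ (JZero p) ((ℓ : ℤ) ^ k)).toAddSubgroup hfin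
    (fun σ y hy => smul_mem_tors σ hy)

/-- **S19 from the two layers.** -/
theorem s19_of_layers (hOT : Coord.OrderTarget)
    (p : ℕ) [NeZero p] (ℓ : ℕ) [Fact ℓ.Prime] (k : ℕ)
    (A : ValuationSubring Qb) (hA : A.LiesOverPrime ℓ)
    (C : Coord.CoordSystem ℓ A (JZero p) (galActJ p)) :
    ∃ (H : Type) (_ : CommRing H) (_ : HopfAlgebra (GaloisRep.ratLocalizedAt ℓ) H),
      Module.Finite (GaloisRep.ratLocalizedAt ℓ) H ∧ Module.Flat (GaloisRep.ratLocalizedAt ℓ) H ∧
      Coalgebra.IsCocomm (GaloisRep.ratLocalizedAt ℓ) H ∧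
      ∃ e : WithConv (H →ₐ[GaloisRep.ratLocalizedAt ℓ] AlgebraicClosure ℚ) ≃
          ↥(Submodule.torsionBy ℤ (JZero p) ((ℓ : ℤ) ^ k)),
        (∀ f g, e (f * g) = e f + e g) ∧
        ∀ (σ : AlgebraicClosure ℚ ≃ₐ[ℚ] AlgebraicClosure ℚ)
          (f g : WithConv (H →ₐ[GaloisRep.ratLocalizedAt ℓ] AlgebraicClosure ℚ)),
          (∀ h : H, g h = σ (f h)) → ((e g : JZero p)) = σ • (e f : JZero p) := by
  obtain ⟨Hs, h⟩ := exists_isHopfOrder_tors_of_orderTarget hOT p ℓ k A hA C
  exact s19_of_isHopfOrder p ℓ k h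

end TopWire

end Fermat.Agent.S19.Abs
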