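/-
S32, final interface: `GaloisRepAdic.IsFlatAt` from Hopf models (or Hopf orders) of all finite
levels `V / I V`.
-/
import Mathlib
import Fermat.Prelude.Def_GaloisRep_Adic
import Fermat.Prelude.Def_GaloisRep_Flat
import Fermat.Agent.S19.Abs.HopfOfOrder

set_option autoImplicit false

open GaloisRep

namespace Fermat.Agent.S19.Abs

section FlatAt

variable {A : Type} [CommRing A] [IsLocalRing A]

/-- the Galois action on the finite level `V / I V`, as a plain function -/
noncomputable def levelAct (ρ : GaloisRepAdic A) (I : Ideal A) :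
    GQ → (ρ.V ⧸ (I • (⊤ : Submodule A ρ.V))) → (ρ.V ⧸ (I • (⊤ : Submodule A ρ.V))) :=
  fun σ y => ρ.levelAction I σ y

theorem levelAct_mk (ρ : GaloisRepAdic A) (I : Ideal A) (σ : GQ) (v : ρ.V) :
    levelAct ρ I σ (Submodule.Quotient.mk v) = Submodule.Quotient.mk (ρ.ρ σ v) := rfl

theorem isGalAction_levelAct (ρ : GaloisRepAdic A) (I : Ideal A) :
    IsGalAction (levelAct ρ I) where
  one y := by
    induction y using Submodule.Quotient.induction_on with
    | _ v => rw [levelAct_mk, map_one]; rfl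
  mul σ τ y := by
    induction y using Submodule.Quotient.induction_on with
    | _ v => rw [levelAct_mk, levelAct_mk, levelAct_mk, map_mul]; rfl
  add σ y y' := map_add (ρ.levelAction I σ) y y'

/-- `IsFlatAt` from Hopf models of all finite levels -/
theorem isFlatAt_of_hasHopfModel (ρ : GaloisRepAdic A) (p : ℕ)
    (hfin : Finite (IsLocalRing.ResidueField A))
    (h : ∀ I : Ideal A, Finite (A ⧸ I) → HasHopfModel p (levelAct ρ I)) :
    ρ.IsFlatAt p :=
  ⟨hfin, fun I hI => h I hI⟩

/-- the finite levels are finite -/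
theorem finite_level (ρ : GaloisRepAdic A) (I : Ideal A) [Finite (A ⧸ I)] :
    Finite (ρ.V ⧸ (I • (⊤ : Submodule A ρ.V))) := by
  classical
  let b := Module.Free.chooseBasis A ρ.V
  -- `V / I V` is a quotient of `(A / I)^n`
  let f : (Module.Free.ChooseBasisIndex A ρ.V → A) →ₗ[A] (ρ.V ⧸ (I • (⊤ : Submodule A ρ.V))) :=
    (Submodule.mkQ _).comp b.equivFun.symm.toLinearMap
  have hf : ∀ c c' : Module.Free.ChooseBasisIndex A ρ.V → A,
      (∀ i, Ideal.Quotient.mk I (c i) = Ideal.Quotient.mk I (c' i)) → f c = f c' := by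
    intro c c' hcc
    rw [← sub_eq_zero, ← map_sub]
    simp only [f, LinearMap.comp_apply, Submodule.mkQ_apply, Submodule.Quotient.mk_eq_zero,
      LinearEquiv.coe_coe, Module.Basis.equivFun_symm_apply]
    refine Submodule.sum_mem _ fun i _ => ?_
    refine Submodule.smul_mem_smul ?_ Submodule.mem_top
    have := hcc i
    rw [Ideal.Quotient.eq] at this
    exact this
  let g : (Module.Free.ChooseBasisIndex A ρ.V → A ⧸ I) → (ρ.V ⧸ (I • (⊤ : Submodule A ρ.V))) :=
    fun c => f (fun i => (Quotient.out (c i) : A))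
  refine Finite.of_surjective g ?_
  intro y
  obtain ⟨v, rfl⟩ := Submodule.Quotient.mk_surjective _ y
  refine ⟨fun i => Ideal.Quotient.mk I (b.equivFun v i), ?_⟩
  have : f (b.equivFun v) = Submodule.Quotient.mk v := by
    simp [f]
  rw [← this]
  refine hf _ _ fun i => ?_
  exact Quotient.out_eq _

/-- `IsFlatAt` from Hopf orders of all finite levels -/
theorem isFlatAt_of_isHopfOrder (ρ : GaloisRepAdic A) (p : ℕ) [Fact p.Prime]
    (hfin : Finite (IsLocalRing.ResidueField A))
    (h : ∀ I : Ideal A, Finite (A ⧸ I) →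
      ∃ Hs : Subalgebra (ratLocalizedAt p) ((ρ.V ⧸ (I • (⊤ : Submodule A ρ.V))) → Qb),
        IsHopfOrder p (levelAct ρ I) Hs) :
    ρ.IsFlatAt p := by
  refine isFlatAt_of_hasHopfModel ρ p hfin fun I hI => ?_
  obtain ⟨Hs, hHs⟩ := h I hI
  have := finite_level ρ I
  exact hasHopfModel_of_isHopfOrder p (isGalAction_levelAct ρ I) hHs

end FlatAt

end Fermat.Agent.S19.Abs
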