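/-
S32, top wiring: for a Hecke–Galois datum, `H.ρ.IsFlatAt p` follows from Hopf orders on all finite
levels `V / I V`.
-/
import Mathlib
import Fermat.Prelude.Def_CuspForm_HeckeGaloisRepDatum
import Fermat.Agent.S19.Abs.FlatAt

set_option autoImplicit false

open GaloisRep

namespace Fermat.Agent.S19.Abs

section S32Top

variable {N : ℕ} [NeZero N] {S : Set ℕ}
  {𝒪 : Type} [CommRing 𝒪] [IsDomain 𝒪] [IsDiscreteValuationRing 𝒪]
  [IsAdicComplete (IsLocalRing.maximalIdeal 𝒪) 𝒪]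
  {θ : CuspForm.heckeAlgebra N 2 S →+* IsLocalRing.ResidueField 𝒪}
  {T : Type} [CommRing T] [IsLocalRing T] [IsNoetherianRing T]
  [IsAdicComplete (IsLocalRing.maximalIdeal T) T] [Algebra 𝒪 T] [IsLocalHom (algebraMap 𝒪 T)]
  [Module.Finite 𝒪 T] [Module.Free 𝒪 T]

/-- the residue field of the coefficient ring of a datum is finite -/
theorem finite_residueField_of_datum [Finite (IsLocalRing.ResidueField 𝒪)]
    (H : CuspForm.HeckeGaloisRepDatum N S 𝒪 θ T) : Finite (IsLocalRing.ResidueField T) := by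
  refine Finite.of_surjective (IsLocalRing.ResidueField.map (algebraMap 𝒪 T)) ?_
  intro x
  obtain ⟨a, ha⟩ := H.residue_surjective x
  exact ⟨IsLocalRing.residue 𝒪 a, by rw [IsLocalRing.ResidueField.map_residue]; exact ha⟩

/-- **S32 from Hopf orders on all finite levels.** -/
theorem s32_of_levels [Finite (IsLocalRing.ResidueField 𝒪)] {p : ℕ} (hp : p.Prime)
    (H : CuspForm.HeckeGaloisRepDatum N S 𝒪 θ T)
    (h : ∀ I : Ideal T, Finite (T ⧸ I) →
      ∃ Hs : Subalgebra (ratLocalizedAt p) ((H.ρ.V ⧸ (I • (⊤ : Submodule T H.ρ.V))) → Qb),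
        IsHopfOrder p (levelAct H.ρ I) Hs) :
    H.ρ.IsFlatAt p :=
  haveI : Fact p.Prime := ⟨hp⟩
  isFlatAt_of_isHopfOrder H.ρ p (finite_residueField_of_datum H) h

end S32Top

end Fermat.Agent.S19.Abs
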