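/-
S19, top wiring, final form: the frozen statement S19 from the single deliverable of the geometric
layer, a `Coord.LevelCoordSystem` on `J₀(p)(ℚ̄)` at a place of `ℚ̄` over `ℓ` (`ℓ ∤ p`).
The order layer is `Order.OrderTargetProof.orderTarget`.
-/
import Mathlib
import Fermat.Agent.S19.Abs.TopWire
import Fermat.Agent.S19.Coord.Avg
import Fermat.Agent.S19.Order.OrderTargetProof
import Fermat.Agent.S54.Frobenius

set_option autoImplicit false

open ModularCurve GaloisRep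

namespace Fermat.Agent.S19.Abs

section TopGeo

/-- **The deliverable of the geometric layer**: for every level `p` and every prime `ℓ ∤ p` there
is a place `A` of `ℚ̄` over `ℓ` with a level coordinate system on `J₀(p)(ℚ̄)`. -/
def GeoTarget : Prop :=
  ∀ (p : ℕ) [NeZero p] (ℓ : ℕ), ℓ.Prime → ¬ ℓ ∣ p →
    ∃ A : ValuationSubring Qb, A.LiesOverPrime ℓ ∧
      Nonempty (Coord.LevelCoordSystem ℓ A (JZero p) (galActJ p))

/-- a Hopf order on every torsion module from the geometric layer -/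
theorem exists_isHopfOrder_tors_of_geo (hGeo : GeoTarget)
    (p : ℕ) [NeZero p] (ℓ : ℕ) [Fact ℓ.Prime] (hℓp : ¬ ℓ ∣ p) (k : ℕ) :
    ∃ Hs : Subalgebra (ratLocalizedAt ℓ) (Tors p ℓ k → Qb),
      IsHopfOrder ℓ (torsAct p ℓ k) Hs := by
  have hℓ : ℓ.Prime := Fact.out
  obtain ⟨A, hA, ⟨C⟩⟩ := hGeo p ℓ hℓ hℓp
  exact exists_isHopfOrder_tors_of_orderTarget
    Fermat.Agent.S19.Order.OrderTargetProof.orderTarget p ℓ k A hA
    (C.toCoordSystem hℓ hA (isGalAction_galActJ p))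

/-- **S19 from the geometric layer.** -/
theorem s19_of_geo (hGeo : GeoTarget)
    (p : ℕ) [NeZero p] (ℓ : ℕ) [Fact ℓ.Prime] (hℓp : ¬ ℓ ∣ p) (k : ℕ) :
    ∃ (H : Type) (_ : CommRing H) (_ : HopfAlgebra (GaloisRep.ratLocalizedAt ℓ) H),
      Module.Finite (GaloisRep.ratLocalizedAt ℓ) H ∧ Module.Flat (GaloisRep.ratLocalizedAt ℓ) H ∧
      Coalgebra.IsCocomm (GaloisRep.ratLocalizedAt ℓ) H ∧
      ∃ e : WithConv (H →ₐ[GaloisRep.ratLocalizedAt ℓ] AlgebraicClosure ℚ) ≃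
          ↥(Submodule.torsionBy ℤ (JZero p) ((ℓ : ℤ) ^ k)),
        (∀ f g, e (f * g) = e f + e g) ∧
        ∀ (σ : AlgebraicClosure ℚ ≃ₐ[ℚ] AlgebraicClosure ℚ)
          (f g : WithConv (H →ₐ[GaloisRep.ratLocalizedAt ℓ] AlgebraicClosure ℚ)),
          (∀ h : H, g h = σ (f h)) → ((e g : JZero p)) = σ • (e f : JZero p) := by
  obtain ⟨Hs, h⟩ := exists_isHopfOrder_tors_of_geo hGeo p ℓ hℓp k
  exact s19_of_isHopfOrder p ℓ k h

/-- the geometric target, if the coordinate system exists at EVERY place over `ℓ` -/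
theorem geoTarget_of_forall
    (h : ∀ (p : ℕ) [NeZero p] (ℓ : ℕ), ℓ.Prime → ¬ ℓ ∣ p →
      ∀ A : ValuationSubring Qb, A.LiesOverPrime ℓ →
        Nonempty (Coord.LevelCoordSystem ℓ A (JZero p) (galActJ p))) : GeoTarget := by
  intro p _ ℓ hℓ hℓp
  obtain ⟨A, hA⟩ := Fermat.Agent.S54.exists_valuationSubring_liesOverPrime ℓ hℓ
  exact ⟨A, hA, h p ℓ hℓ hℓp A hA⟩

end TopGeo

end Fermat.Agent.S19.Abs
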